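/-
S26, package P5 (ISOG), part I1 -- helper9044.

Main result (only frozen Prelude definitions and Mathlib are used):

    theorem Fermat.Agent.S26.H9044.etale_schemeNsmul [Smooth f] (hc : L.IsCommutative)
        (n : ℕ) (hn : (n : K) ≠ 0) : Etale (L.schemeNsmul n)

for any field `K`, any scheme `A` with `f : A ⟶ Spec K` smooth and `L : RelativeGroupLaw K f`
commutative.  Also exported:

* `Pt L t`              the group of points of `A` over `t : T ⟶ Spec K` (`Group` instance),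
                        `pullHom` (base change of points as a group homomorphism),
                        `comp_schemeNsmul : x.hom ≫ L.schemeNsmul n = (x ^ n).hom`, `one_hom`.
* `infinitesimal`       for a surjection `φ : R ⟶ S` of rings with square-zero kernel, the group
                        of points over `Spec R` restricting to the unit over `Spec S` has no
                        `n`-torsion and is `n`-divisible (`n` invertible in `K`).
* `schemeNsmul_hom_ext`, `schemeNsmul_exists_lift`   uniqueness / existence of infinitesimal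
                        lifts along `[n]`.
* `formallyUnramified_schemeNsmul`, `smooth_schemeNsmul`.

Method: functor of points.  Points near the unit section factor through an affine chart
`Spec Γ(A, U)`; the Eckmann-Hilton argument on the fibre product ring `Γ(A, U) ×_K Γ(A, U)`
identifies the group law on such points with addition of "derivations"; scaling by `1 / n`
stays inside ring homomorphisms.  No stalks, tangent spaces, translations or closed points.
-/
import Mathlib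
import Fermat.Prelude.Def_GoodReductionJacobian_RelativeGroupLawKernel

set_option autoImplicit false

open CategoryTheory CategoryTheory.Limits AlgebraicGeometry NeronModelInfra GoodReductionJacobian

universe u

namespace Fermat.Agent.S26.H9044


section comb

variable {K Q B : Type*} [CommRing K] [CommRing Q] [CommRing B]

/-- Affine combination `τ ε + b (σ - τ ε) + b' (σ' - τ ε)` of two ring homomorphisms that are
congruent to `τ ∘ ε` modulo an ideal of square zero. -/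
def comb (ε : Q →+* K) (τ : K →+* B) (I : Ideal B) (hI : ∀ i ∈ I, ∀ j ∈ I, i * j = 0)
    (σ σ' : Q →+* B) (hσ : ∀ q, σ q - τ (ε q) ∈ I) (hσ' : ∀ q, σ' q - τ (ε q) ∈ I)
    (b b' : B) : Q →+* B where
  toFun q := τ (ε q) + b * (σ q - τ (ε q)) + b' * (σ' q - τ (ε q))
  map_one' := by simp
  map_zero' := by simp
  map_add' x y := by simp only [map_add]; ring
  map_mul' x y := by
    have h1 := hI _ (hσ x) _ (hσ y)
    have h2 := hI _ (hσ x) _ (hσ' y)
    have h3 := hI _ (hσ' x) _ (hσ y)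
    have h4 := hI _ (hσ' x) _ (hσ' y)
    simp only [map_mul]
    linear_combination (b - b ^ 2) * h1 + (b' - b' ^ 2) * h4 - b * b' * h2 - b * b' * h3

theorem comb_apply (ε : Q →+* K) (τ : K →+* B) (I : Ideal B) (hI : ∀ i ∈ I, ∀ j ∈ I, i * j = 0)
    (σ σ' : Q →+* B) (hσ : ∀ q, σ q - τ (ε q) ∈ I) (hσ' : ∀ q, σ' q - τ (ε q) ∈ I)
    (b b' : B) (q : Q) :
    comb ε τ I hI σ σ' hσ hσ' b b' q =
      τ (ε q) + b * (σ q - τ (ε q)) + b' * (σ' q - τ (ε q)) := rfl

theorem comb_sub_mem (ε : Q →+* K) (τ : K →+* B) (I : Ideal B) (hI : ∀ i ∈ I, ∀ j ∈ I, i * j = 0)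
    (σ σ' : Q →+* B) (hσ : ∀ q, σ q - τ (ε q) ∈ I) (hσ' : ∀ q, σ' q - τ (ε q) ∈ I)
    (b b' : B) (q : Q) : comb ε τ I hI σ σ' hσ hσ' b b' q - τ (ε q) ∈ I := by
  rw [comb_apply]
  have : τ (ε q) + b * (σ q - τ (ε q)) + b' * (σ' q - τ (ε q)) - τ (ε q) =
      b * (σ q - τ (ε q)) + b' * (σ' q - τ (ε q)) := by ring
  rw [this]
  exact I.add_mem (I.mul_mem_left _ (hσ q)) (I.mul_mem_left _ (hσ' q))

end comb



variable {K : Type u} [Field K] {A : Scheme.{u}} {f : A ⟶ Spec (CommRingCat.of K)}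

section points

/-- The points of `A` over a test scheme `t : T ⟶ Spec K`, as a type carrying the group law. -/
def Pt (_L : RelativeGroupLaw K f) {T : Scheme.{u}} (t : T ⟶ Spec (CommRingCat.of K)) : Type u :=
  SchemeHomOver t f

variable (L : RelativeGroupLaw K f)

noncomputable instance Pt.instGroup {T : Scheme.{u}} (t : T ⟶ Spec (CommRingCat.of K)) :
    Group (Pt L t) := L.pointGroup t

/-- Constructor for points. -/
def Pt.mk {T : Scheme.{u}} (t : T ⟶ Spec (CommRingCat.of K)) (x : T ⟶ A) (hx : x ≫ f = t) :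
    Pt L t := ⟨x, hx⟩

/-- The underlying morphism of a point. -/
def Pt.hom {L : RelativeGroupLaw K f} {T : Scheme.{u}} {t : T ⟶ Spec (CommRingCat.of K)}
    (x : Pt L t) : T ⟶ A := x.1

@[simp] theorem Pt.hom_mk {T : Scheme.{u}} (t : T ⟶ Spec (CommRingCat.of K)) (x : T ⟶ A)
    (hx : x ≫ f = t) : (Pt.mk L t x hx).hom = x := rfl

theorem Pt.hom_comp {L : RelativeGroupLaw K f} {T : Scheme.{u}}
    {t : T ⟶ Spec (CommRingCat.of K)} (x : Pt L t) : x.hom ≫ f = t := x.2

theorem Pt.ext {L : RelativeGroupLaw K f} {T : Scheme.{u}} {t : T ⟶ Spec (CommRingCat.of K)}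
    {x y : Pt L t} (h : x.hom = y.hom) : x = y := Subtype.ext h

theorem Pt.mul_def {T : Scheme.{u}} (t : T ⟶ Spec (CommRingCat.of K)) (x y : Pt L t) :
    x * y = L.mul t x y := rfl

theorem Pt.one_def {T : Scheme.{u}} (t : T ⟶ Spec (CommRingCat.of K)) :
    (1 : Pt L t) = L.one t := rfl

/-- Pull-back of points along a morphism of test schemes, as a homomorphism of groups. -/
noncomputable def pullHom {T T' : Scheme.{u}} (t : T ⟶ Spec (CommRingCat.of K))
    (t' : T' ⟶ Spec (CommRingCat.of K)) (ψ : T' ⟶ T) (hψ : ψ ≫ t = t') :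
    Pt L t →* Pt L t' where
  toFun := schemeHomOverComp ψ hψ
  map_one' := L.one_natural t t' ψ hψ
  map_mul' := L.mul_natural t t' ψ hψ

@[simp] theorem pullHom_hom {T T' : Scheme.{u}} (t : T ⟶ Spec (CommRingCat.of K))
    (t' : T' ⟶ Spec (CommRingCat.of K)) (ψ : T' ⟶ T) (hψ : ψ ≫ t = t')
    (x : Pt L t) : (pullHom L t t' ψ hψ x).hom = ψ ≫ x.hom := rfl

theorem nsmul_eq_pow {T : Scheme.{u}} (t : T ⟶ Spec (CommRingCat.of K)) (n : ℕ)
    (x : Pt L t) : L.nsmul t n x = x ^ n := by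
  induction n with
  | zero => exact (pow_zero x).symm
  | succ n ih =>
    rw [RelativeGroupLaw.nsmul_succ, ih]
    exact (pow_succ x n).symm

/-- The unit section `Spec K ⟶ A`. -/
noncomputable def unitSec : Spec (CommRingCat.of K) ⟶ A :=
  (L.one (𝟙 (Spec (CommRingCat.of K)))).1

@[reassoc (attr := simp)]
theorem unitSec_comp : unitSec L ≫ f = 𝟙 _ := (L.one (𝟙 (Spec (CommRingCat.of K)))).2

/-- The unit point over `t` is the composite of `t` with the unit section. -/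
theorem one_hom {T : Scheme.{u}} (t : T ⟶ Spec (CommRingCat.of K)) :
    (1 : Pt L t).hom = t ≫ unitSec L := by
  have := L.one_natural (𝟙 (Spec (CommRingCat.of K))) t t (Category.comp_id t)
  rw [Pt.one_def, ← this]
  rfl

/-- Composition with the scheme morphism `[n]` computes the `n`-th power of a point. -/
theorem comp_schemeNsmul {T : Scheme.{u}} (t : T ⟶ Spec (CommRingCat.of K)) (n : ℕ)
    (x : Pt L t) : x.hom ≫ L.schemeNsmul n = (x ^ n).hom := by
  have h := L.nsmul_natural f t x.1 x.2 n RelativeGroupLaw.idPoint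
  have h2 : schemeHomOverComp x.1 x.2 (RelativeGroupLaw.idPoint (f := f)) = x := by
    apply Subtype.ext
    simp [schemeHomOverComp]
  rw [h2] at h
  rw [← nsmul_eq_pow, ← h]
  rfl

end points




section chart

variable {U : A.Opens} (hU : IsAffineOpen U)

/-- The ring homomorphism of a morphism from an affine scheme landing in the affine open `U`. -/
noncomputable def rhoOf {B : CommRingCat.{u}} (x : Spec B ⟶ A) (hx : Set.range x ⊆ U) :
    Γ(A, U) ⟶ B :=
  Spec.preimage (IsOpenImmersion.lift hU.fromSpec x (by rw [hU.range_fromSpec]; exact hx))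

theorem SpecMap_rhoOf {B : CommRingCat.{u}} (x : Spec B ⟶ A) (hx : Set.range x ⊆ U) :
    Spec.map (rhoOf hU x hx) ≫ hU.fromSpec = x := by
  rw [rhoOf, Spec.map_preimage, IsOpenImmersion.lift_fac]

theorem eq_of_SpecMap_fromSpec {B : CommRingCat.{u}} {ρ ρ' : Γ(A, U) ⟶ B}
    (h : Spec.map ρ ≫ hU.fromSpec = Spec.map ρ' ≫ hU.fromSpec) : ρ = ρ' :=
  Spec.map_injective ((cancel_mono hU.fromSpec).mp h)

theorem range_SpecMap_fromSpec {B : CommRingCat.{u}} (ρ : Γ(A, U) ⟶ B) :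
    Set.range (Spec.map ρ ≫ hU.fromSpec) ⊆ U := by
  rintro _ ⟨z, rfl⟩
  have : hU.fromSpec (Spec.map ρ z) ∈ Set.range hU.fromSpec := ⟨_, rfl⟩
  rw [hU.range_fromSpec] at this
  exact this

end chart

section surj

/-- A surjective ring homomorphism with nilpotent kernel is surjective on spectra. -/
theorem SpecMap_surjective_of_sq_zero {R S : CommRingCat.{u}} (φ : R ⟶ S)
    (hφ : Function.Surjective φ) (hker : RingHom.ker φ.hom ^ 2 = ⊥) :
    Function.Surjective (Spec.map φ) := by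
  intro z
  have h1 : Set.range (PrimeSpectrum.comap φ.hom) = PrimeSpectrum.zeroLocus (RingHom.ker φ.hom) :=
    range_comap_of_surjective _ _ hφ
  have h2 : (show PrimeSpectrum R from z) ∈
      PrimeSpectrum.zeroLocus (RingHom.ker φ.hom : Set R) := by
    rw [PrimeSpectrum.mem_zeroLocus]
    have : RingHom.ker φ.hom ^ 2 ≤ (show PrimeSpectrum R from z).asIdeal := by
      rw [hker]; exact bot_le
    exact (show PrimeSpectrum R from z).isPrime.le_of_pow_le this
  rw [← h1] at h2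
  obtain ⟨y, hy⟩ := h2
  exact ⟨y, hy⟩

end surj


section near

variable (L : RelativeGroupLaw K f) {U : A.Opens} (hU : IsAffineOpen U)

/-- The structure homomorphism `K ⟶ Γ(A, U)`. -/
noncomputable def kap (f : A ⟶ Spec (CommRingCat.of K)) {U : A.Opens} (hU : IsAffineOpen U) :
    CommRingCat.of K ⟶ Γ(A, U) :=
  Spec.preimage (hU.fromSpec ≫ f)

theorem SpecMap_kap : Spec.map (kap f hU) = hU.fromSpec ≫ f := Spec.map_preimage _

variable (hE : Set.range (unitSec L) ⊆ U)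

/-- Evaluation at the unit section. -/
noncomputable def ev : Γ(A, U) ⟶ CommRingCat.of K := rhoOf hU (unitSec L) hE

theorem SpecMap_ev : Spec.map (ev L hU hE) ≫ hU.fromSpec = unitSec L := SpecMap_rhoOf hU _ hE

theorem kap_ev : kap f hU ≫ ev L hU hE = 𝟙 _ := by
  apply Spec.map_injective
  rw [Spec.map_comp, SpecMap_kap, ← Category.assoc, SpecMap_ev, unitSec_comp, Spec.map_id]

theorem ev_kap_apply (c : K) : ev L hU hE (kap f hU c) = c := by
  have := kap_ev L hU hE
  exact congr($this c)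

/-- The point attached to a ring homomorphism `Γ(A, U) ⟶ B`. -/
noncomputable def ofRho {B : CommRingCat.{u}} (τ : CommRingCat.of K ⟶ B) (ρ : Γ(A, U) ⟶ B)
    (h : kap f hU ≫ ρ = τ) : Pt L (Spec.map τ) :=
  Pt.mk L _ (Spec.map ρ ≫ hU.fromSpec)
    (by rw [Category.assoc, ← SpecMap_kap, ← Spec.map_comp, h])

@[simp] theorem ofRho_hom {B : CommRingCat.{u}} (τ : CommRingCat.of K ⟶ B) (ρ : Γ(A, U) ⟶ B)
    (h : kap f hU ≫ ρ = τ) : (ofRho L hU τ ρ h).hom = Spec.map ρ ≫ hU.fromSpec := rfl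

theorem ofRho_congr {B : CommRingCat.{u}} (τ : CommRingCat.of K ⟶ B) {ρ ρ' : Γ(A, U) ⟶ B}
    (h : kap f hU ≫ ρ = τ) (hρ : ρ = ρ') :
    ofRho L hU τ ρ h = ofRho L hU τ ρ' (hρ ▸ h) := by
  subst hρ; rfl

theorem ofRho_injective {B : CommRingCat.{u}} (τ : CommRingCat.of K ⟶ B) {ρ ρ' : Γ(A, U) ⟶ B}
    (h : kap f hU ≫ ρ = τ) (h' : kap f hU ≫ ρ' = τ)
    (e : ofRho L hU τ ρ h = ofRho L hU τ ρ' h') : ρ = ρ' := by
  apply eq_of_SpecMap_fromSpec hU
  have := congrArg Pt.hom e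
  simpa using this

theorem pullHom_ofRho {B B' : CommRingCat.{u}} (τ : CommRingCat.of K ⟶ B) (ρ : Γ(A, U) ⟶ B)
    (h : kap f hU ≫ ρ = τ) (ψ : B ⟶ B') :
    pullHom L (Spec.map τ) (Spec.map (τ ≫ ψ)) (Spec.map ψ) (Spec.map_comp _ _).symm
        (ofRho L hU τ ρ h) =
      ofRho L hU (τ ≫ ψ) (ρ ≫ ψ) (by rw [← Category.assoc, h]) := by
  apply Pt.ext
  simp [Spec.map_comp]

theorem one_eq_ofRho {B : CommRingCat.{u}} (τ : CommRingCat.of K ⟶ B) :
    (1 : Pt L (Spec.map τ)) =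
      ofRho L hU τ (ev L hU hE ≫ τ) (by rw [← Category.assoc, kap_ev, Category.id_comp]) := by
  apply Pt.ext
  rw [one_hom, ofRho_hom, Spec.map_comp, Category.assoc, SpecMap_ev]

end near

section double

variable (L : RelativeGroupLaw K f) {U : A.Opens} (hU : IsAffineOpen U)
  (hE : Set.range (unitSec L) ⊆ U)

/-- The fibre product `Γ(A, U) ×_K Γ(A, U)` over evaluation at the unit section, as a subring of
the product. -/
noncomputable def Wsub : Subring (Γ(A, U) × Γ(A, U)) :=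
  RingHom.eqLocus ((ev L hU hE).hom.comp (RingHom.fst _ _))
    ((ev L hU hE).hom.comp (RingHom.snd _ _))

theorem mem_Wsub (w : Γ(A, U) × Γ(A, U)) :
    w ∈ Wsub L hU hE ↔ ev L hU hE w.1 = ev L hU hE w.2 := Iff.rfl

/-- The fibre product ring as an object of `CommRingCat`. -/
noncomputable def W : CommRingCat.{u} := CommRingCat.of (Wsub L hU hE)

/-- First projection. -/
noncomputable def p1 : W L hU hE ⟶ Γ(A, U) :=
  CommRingCat.ofHom ((RingHom.fst _ _).comp (Wsub L hU hE).subtype)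

/-- Second projection. -/
noncomputable def p2 : W L hU hE ⟶ Γ(A, U) :=
  CommRingCat.ofHom ((RingHom.snd _ _).comp (Wsub L hU hE).subtype)

/-- The diagonal. -/
noncomputable def dg : Γ(A, U) ⟶ W L hU hE :=
  CommRingCat.ofHom (RingHom.codRestrict (RingHom.prod (RingHom.id _) (RingHom.id _))
    (Wsub L hU hE) (fun _ => rfl))

/-- First inclusion `a ↦ (a, κ (ev a))`. -/
noncomputable def i1 : Γ(A, U) ⟶ W L hU hE :=
  CommRingCat.ofHom (RingHom.codRestrict
    (RingHom.prod (RingHom.id _) ((kap f hU).hom.comp (ev L hU hE).hom))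
    (Wsub L hU hE) (fun _ => (ev_kap_apply L hU hE _).symm))

/-- Second inclusion `a ↦ (κ (ev a), a)`. -/
noncomputable def i2 : Γ(A, U) ⟶ W L hU hE :=
  CommRingCat.ofHom (RingHom.codRestrict
    (RingHom.prod ((kap f hU).hom.comp (ev L hU hE).hom) (RingHom.id _))
    (Wsub L hU hE) (fun _ => ev_kap_apply L hU hE _))

theorem dg_p1 : dg L hU hE ≫ p1 L hU hE = 𝟙 _ := rfl
theorem dg_p2 : dg L hU hE ≫ p2 L hU hE = 𝟙 _ := rfl
theorem i1_p1 : i1 L hU hE ≫ p1 L hU hE = 𝟙 _ := rfl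
theorem i1_p2 : i1 L hU hE ≫ p2 L hU hE = ev L hU hE ≫ kap f hU := rfl
theorem i2_p1 : i2 L hU hE ≫ p1 L hU hE = ev L hU hE ≫ kap f hU := rfl
theorem i2_p2 : i2 L hU hE ≫ p2 L hU hE = 𝟙 _ := rfl

theorem W_hom_ext {X : CommRingCat.{u}} {ω ω' : X ⟶ W L hU hE}
    (h1 : ω ≫ p1 L hU hE = ω' ≫ p1 L hU hE) (h2 : ω ≫ p2 L hU hE = ω' ≫ p2 L hU hE) :
    ω = ω' := by
  ext x
  apply Subtype.ext
  apply Prod.ext
  · exact congr($h1 x)
  · exact congr($h2 x)

theorem kap_i1 : kap f hU ≫ i1 L hU hE = kap f hU ≫ dg L hU hE := by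
  apply W_hom_ext L hU hE
  · rw [Category.assoc, Category.assoc, i1_p1, dg_p1]
  · rw [Category.assoc, Category.assoc, i1_p2, dg_p2, ← Category.assoc, kap_ev, Category.id_comp,
      Category.comp_id]

theorem kap_i2 : kap f hU ≫ i2 L hU hE = kap f hU ≫ dg L hU hE := by
  apply W_hom_ext L hU hE
  · rw [Category.assoc, Category.assoc, i2_p1, dg_p1, ← Category.assoc, kap_ev, Category.id_comp,
      Category.comp_id]
  · rw [Category.assoc, Category.assoc, i2_p2, dg_p2]

theorem p1_surjective : Function.Surjective (p1 L hU hE) := fun a =>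
  ⟨i1 L hU hE a, rfl⟩

theorem p2_surjective : Function.Surjective (p2 L hU hE) := fun a =>
  ⟨i2 L hU hE a, rfl⟩

theorem W_cover (z : Spec (W L hU hE)) :
    z ∈ Set.range (Spec.map (p1 L hU hE)) ∨ z ∈ Set.range (Spec.map (p2 L hU hE)) := by
  have hz : RingHom.ker (p1 L hU hE).hom * RingHom.ker (p2 L hU hE).hom ≤
      (show PrimeSpectrum (W L hU hE) from z).asIdeal := by
    rw [Ideal.mul_le]
    intro a ha b hb
    have : a * b = 0 := by
      apply Subtype.ext
      apply Prod.ext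
      · have ha' : (a.1).1 = 0 := ha
        show (a.1).1 * (b.1).1 = 0
        rw [ha', zero_mul]
      · have hb' : (b.1).2 = 0 := hb
        show (a.1).2 * (b.1).2 = 0
        rw [hb', mul_zero]
    rw [this]
    exact Ideal.zero_mem _
  rcases (show PrimeSpectrum (W L hU hE) from z).isPrime.mul_le.mp hz with h | h
  · left
    have h1 : Set.range (PrimeSpectrum.comap (p1 L hU hE).hom) =
        PrimeSpectrum.zeroLocus (RingHom.ker (p1 L hU hE).hom) :=
      range_comap_of_surjective _ _ (p1_surjective L hU hE)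
    have h2 : (show PrimeSpectrum (W L hU hE) from z) ∈
        PrimeSpectrum.zeroLocus (RingHom.ker (p1 L hU hE).hom : Set (W L hU hE)) := h
    rw [← h1] at h2
    obtain ⟨y, hy⟩ := h2
    exact ⟨y, hy⟩
  · right
    have h1 : Set.range (PrimeSpectrum.comap (p2 L hU hE).hom) =
        PrimeSpectrum.zeroLocus (RingHom.ker (p2 L hU hE).hom) :=
      range_comap_of_surjective _ _ (p2_surjective L hU hE)
    have h2 : (show PrimeSpectrum (W L hU hE) from z) ∈
        PrimeSpectrum.zeroLocus (RingHom.ker (p2 L hU hE).hom : Set (W L hU hE)) := h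
    rw [← h1] at h2
    obtain ⟨y, hy⟩ := h2
    exact ⟨y, hy⟩

end double

section eckmannHilton

variable (L : RelativeGroupLaw K f) {U : A.Opens} (hU : IsAffineOpen U)
  (hE : Set.range (unitSec L) ⊆ U)

/-- Multiplying a point by a point given by `ev ≫ τ` does nothing. -/
theorem ofRho_mul_ofRho_ev {B : CommRingCat.{u}} (τ : CommRingCat.of K ⟶ B) (ρ ρ' : Γ(A, U) ⟶ B)
    (h : kap f hU ≫ ρ = τ) (h' : kap f hU ≫ ρ' = τ) (hρ' : ρ' = ev L hU hE ≫ τ) :
    ofRho L hU τ ρ h * ofRho L hU τ ρ' h' = ofRho L hU τ ρ h := by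
  subst hρ'
  rw [← one_eq_ofRho L hU hE τ, mul_one]

theorem ofRho_ev_mul_ofRho {B : CommRingCat.{u}} (τ : CommRingCat.of K ⟶ B) (ρ ρ' : Γ(A, U) ⟶ B)
    (h : kap f hU ≫ ρ = τ) (h' : kap f hU ≫ ρ' = τ) (hρ' : ρ' = ev L hU hE ≫ τ) :
    ofRho L hU τ ρ' h' * ofRho L hU τ ρ h = ofRho L hU τ ρ h := by
  subst hρ'
  rw [← one_eq_ofRho L hU hE τ, one_mul]

theorem comp_mul_hom {B B' : CommRingCat.{u}} (τ : CommRingCat.of K ⟶ B) (ψ : B ⟶ B')
    (x y : Pt L (Spec.map τ)) :
    Spec.map ψ ≫ (x * y).hom =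
      (pullHom L (Spec.map τ) (Spec.map (τ ≫ ψ)) (Spec.map ψ) (Spec.map_comp _ _).symm x *
        pullHom L (Spec.map τ) (Spec.map (τ ≫ ψ)) (Spec.map ψ) (Spec.map_comp _ _).symm y).hom := by
  rw [← map_mul]
  rfl

/-- **Eckmann–Hilton, universal case**: the product of the two universal points over the fibre
product ring is the diagonal point. -/
theorem univ_mul :
    ofRho L hU (kap f hU ≫ dg L hU hE) (i1 L hU hE) (kap_i1 L hU hE) *
        ofRho L hU (kap f hU ≫ dg L hU hE) (i2 L hU hE) (kap_i2 L hU hE) =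
      ofRho L hU (kap f hU ≫ dg L hU hE) (dg L hU hE) rfl := by
  -- restriction to the first copy
  have e1 : Spec.map (p1 L hU hE) ≫
      (ofRho L hU (kap f hU ≫ dg L hU hE) (i1 L hU hE) (kap_i1 L hU hE) *
        ofRho L hU (kap f hU ≫ dg L hU hE) (i2 L hU hE) (kap_i2 L hU hE)).hom = hU.fromSpec := by
    rw [comp_mul_hom, pullHom_ofRho, pullHom_ofRho, ofRho_mul_ofRho_ev L hU hE _ _ _ _ _
      (by rw [i2_p1, Category.assoc, dg_p1, Category.comp_id]),
      ofRho_hom, i1_p1, Spec.map_id, Category.id_comp]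
  have e2 : Spec.map (p2 L hU hE) ≫
      (ofRho L hU (kap f hU ≫ dg L hU hE) (i1 L hU hE) (kap_i1 L hU hE) *
        ofRho L hU (kap f hU ≫ dg L hU hE) (i2 L hU hE) (kap_i2 L hU hE)).hom = hU.fromSpec := by
    rw [comp_mul_hom, pullHom_ofRho, pullHom_ofRho, ofRho_ev_mul_ofRho L hU hE _ _ _ _ _
      (by rw [i1_p2, Category.assoc, dg_p2, Category.comp_id]),
      ofRho_hom, i2_p2, Spec.map_id, Category.id_comp]
  obtain ⟨w, hw⟩ : ∃ w, w = ofRho L hU (kap f hU ≫ dg L hU hE) (i1 L hU hE) (kap_i1 L hU hE) *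
        ofRho L hU (kap f hU ≫ dg L hU hE) (i2 L hU hE) (kap_i2 L hU hE) := ⟨_, rfl⟩
  rw [← hw] at e1 e2 ⊢
  have hrange : Set.range w.hom ⊆ U := by
    rintro _ ⟨z, rfl⟩
    rcases W_cover L hU hE z with ⟨y, rfl⟩ | ⟨y, rfl⟩
    · have : w.hom (Spec.map (p1 L hU hE) y) = hU.fromSpec y := by
        rw [← e1]; rfl
      rw [this]
      have h3 : hU.fromSpec y ∈ Set.range hU.fromSpec := ⟨_, rfl⟩
      rw [hU.range_fromSpec] at h3
      exact h3
    · have : w.hom (Spec.map (p2 L hU hE) y) = hU.fromSpec y := by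
        rw [← e2]; rfl
      rw [this]
      have h3 : hU.fromSpec y ∈ Set.range hU.fromSpec := ⟨_, rfl⟩
      rw [hU.range_fromSpec] at h3
      exact h3
  have hω := SpecMap_rhoOf hU w.hom hrange
  have hdg : rhoOf hU w.hom hrange = dg L hU hE := by
    apply W_hom_ext L hU hE
    · rw [dg_p1]
      apply eq_of_SpecMap_fromSpec hU
      rw [Spec.map_comp, Category.assoc, hω, e1, Spec.map_id, Category.id_comp]
    · rw [dg_p2]
      apply eq_of_SpecMap_fromSpec hU
      rw [Spec.map_comp, Category.assoc, hω, e2, Spec.map_id, Category.id_comp]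
  apply Pt.ext
  rw [ofRho_hom]
  exact hω.symm.trans (by rw [hdg])

/-- **Eckmann–Hilton**: product of the two points obtained from a ring homomorphism out of the
fibre product ring. -/
theorem ofRho_mul_of_W {B : CommRingCat.{u}} (Φ : W L hU hE ⟶ B) :
    ofRho L hU ((kap f hU ≫ dg L hU hE) ≫ Φ) (i1 L hU hE ≫ Φ)
          (by rw [← Category.assoc, kap_i1]) *
        ofRho L hU ((kap f hU ≫ dg L hU hE) ≫ Φ) (i2 L hU hE ≫ Φ)
          (by rw [← Category.assoc, kap_i2]) =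
      ofRho L hU ((kap f hU ≫ dg L hU hE) ≫ Φ) (dg L hU hE ≫ Φ) (by rw [Category.assoc]) := by
  have h := congrArg (pullHom L (Spec.map (kap f hU ≫ dg L hU hE))
      (Spec.map ((kap f hU ≫ dg L hU hE) ≫ Φ)) (Spec.map Φ)
      (Spec.map_comp _ _).symm) (univ_mul L hU hE)
  rw [map_mul, pullHom_ofRho, pullHom_ofRho, pullHom_ofRho] at h
  exact h

end eckmannHilton

section infinitesimal

variable (L : RelativeGroupLaw K f) {U : A.Opens} (hU : IsAffineOpen U)
  (hE : Set.range (unitSec L) ⊆ U)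

theorem kap_comb {B : CommRingCat.{u}} (τ : CommRingCat.of K ⟶ B) (I : Ideal B)
    (hI : ∀ i ∈ I, ∀ j ∈ I, i * j = 0) (ρx ρy : Γ(A, U) ⟶ B)
    (hx : kap f hU ≫ ρx = τ) (hy : kap f hU ≫ ρy = τ)
    (hxI : ∀ a, ρx.hom a - τ.hom ((ev L hU hE).hom a) ∈ I)
    (hyI : ∀ a, ρy.hom a - τ.hom ((ev L hU hE).hom a) ∈ I) (b b' : B) :
    kap f hU ≫ CommRingCat.ofHom (comb (ev L hU hE).hom τ.hom I hI ρx.hom ρy.hom hxI hyI b b') =
      τ := by
  ext c
  have h1 : ρx.hom ((kap f hU).hom c) = τ.hom c := congr($hx c)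
  have h2 : ρy.hom ((kap f hU).hom c) = τ.hom c := congr($hy c)
  have h3 : (ev L hU hE).hom ((kap f hU).hom c) = c := ev_kap_apply L hU hE c
  show comb (ev L hU hE).hom τ.hom I hI ρx.hom ρy.hom hxI hyI b b' ((kap f hU).hom c) = τ.hom c
  rw [comb_apply, h1, h2, h3]
  ring

theorem ofRho_mul_aux {B : CommRingCat.{u}} (τ' : CommRingCat.of K ⟶ B) (Φ : W L hU hE ⟶ B)
    (hτ' : (kap f hU ≫ dg L hU hE) ≫ Φ = τ') (ρx ρy ρs : Γ(A, U) ⟶ B)
    (h1 : i1 L hU hE ≫ Φ = ρx) (h2 : i2 L hU hE ≫ Φ = ρy) (h3 : dg L hU hE ≫ Φ = ρs)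
    (hx : kap f hU ≫ ρx = τ') (hy : kap f hU ≫ ρy = τ') (hs : kap f hU ≫ ρs = τ') :
    ofRho L hU τ' ρx hx * ofRho L hU τ' ρy hy = ofRho L hU τ' ρs hs := by
  subst h1 h2 h3 hτ'
  exact ofRho_mul_of_W L hU hE Φ

/-- **Addition formula**: the product of two points infinitesimally close to the unit section
corresponds to the sum of the associated "derivations". -/
theorem ofRho_mul_ofRho {B : CommRingCat.{u}} (τ : CommRingCat.of K ⟶ B) (I : Ideal B)
    (hI : ∀ i ∈ I, ∀ j ∈ I, i * j = 0) (ρx ρy : Γ(A, U) ⟶ B)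
    (hx : kap f hU ≫ ρx = τ) (hy : kap f hU ≫ ρy = τ)
    (hxI : ∀ a, ρx.hom a - τ.hom ((ev L hU hE).hom a) ∈ I)
    (hyI : ∀ a, ρy.hom a - τ.hom ((ev L hU hE).hom a) ∈ I) :
    ofRho L hU τ ρx hx * ofRho L hU τ ρy hy =
      ofRho L hU τ
        (CommRingCat.ofHom (comb (ev L hU hE).hom τ.hom I hI ρx.hom ρy.hom hxI hyI 1 1))
        (kap_comb L hU hE τ I hI ρx ρy hx hy hxI hyI 1 1) := by
  have hw : ∀ w : W L hU hE, (ev L hU hE).hom ((p1 L hU hE).hom w) =
      (ev L hU hE).hom ((p2 L hU hE).hom w) := fun w => w.2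
  have k1 : ∀ c : K, ρx.hom ((kap f hU).hom c) = τ.hom c := fun c => congr($hx c)
  have k2 : ∀ c : K, ρy.hom ((kap f hU).hom c) = τ.hom c := fun c => congr($hy c)
  have k3 : ∀ c : K, (ev L hU hE).hom ((kap f hU).hom c) = c := ev_kap_apply L hU hE
  let Φ : W L hU hE ⟶ B := CommRingCat.ofHom
    (comb ((ev L hU hE).hom.comp (p1 L hU hE).hom) τ.hom I hI
      (ρx.hom.comp (p1 L hU hE).hom) (ρy.hom.comp (p2 L hU hE).hom)
      (fun w => hxI _) (fun w => by
        show ρy.hom ((p2 L hU hE).hom w) - τ.hom ((ev L hU hE).hom ((p1 L hU hE).hom w)) ∈ I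
        rw [hw w]; exact hyI _) 1 1)
  have h1 : i1 L hU hE ≫ Φ = ρx := by
    ext a
    show τ.hom ((ev L hU hE).hom a) + 1 * (ρx.hom a - τ.hom ((ev L hU hE).hom a)) +
      1 * (ρy.hom ((kap f hU).hom ((ev L hU hE).hom a)) - τ.hom ((ev L hU hE).hom a)) = ρx.hom a
    rw [k2]; ring
  have h2 : i2 L hU hE ≫ Φ = ρy := by
    ext a
    show τ.hom ((ev L hU hE).hom ((kap f hU).hom ((ev L hU hE).hom a))) +
        1 * (ρx.hom ((kap f hU).hom ((ev L hU hE).hom a)) -
          τ.hom ((ev L hU hE).hom ((kap f hU).hom ((ev L hU hE).hom a)))) +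
      1 * (ρy.hom a - τ.hom ((ev L hU hE).hom ((kap f hU).hom ((ev L hU hE).hom a)))) = ρy.hom a
    rw [k1, k3]; ring
  have h3 : dg L hU hE ≫ Φ =
      CommRingCat.ofHom (comb (ev L hU hE).hom τ.hom I hI ρx.hom ρy.hom hxI hyI 1 1) := by
    ext a
    rfl
  have hτ' : (kap f hU ≫ dg L hU hE) ≫ Φ = τ := by
    rw [Category.assoc, h3]
    exact kap_comb L hU hE τ I hI ρx ρy hx hy hxI hyI 1 1
  exact ofRho_mul_aux L hU hE τ Φ hτ' ρx ρy _ h1 h2 h3 hx hy _

/-- The "scalar multiple" of an infinitesimal point. -/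
noncomputable def scale {B : CommRingCat.{u}} (τ : CommRingCat.of K ⟶ B) (I : Ideal B)
    (hI : ∀ i ∈ I, ∀ j ∈ I, i * j = 0) (ρ : Γ(A, U) ⟶ B)
    (hρI : ∀ a, ρ.hom a - τ.hom ((ev L hU hE).hom a) ∈ I) (b : B) : Γ(A, U) ⟶ B :=
  CommRingCat.ofHom (comb (ev L hU hE).hom τ.hom I hI ρ.hom ρ.hom hρI hρI b 0)

theorem scale_apply {B : CommRingCat.{u}} (τ : CommRingCat.of K ⟶ B) (I : Ideal B)
    (hI : ∀ i ∈ I, ∀ j ∈ I, i * j = 0) (ρ : Γ(A, U) ⟶ B)
    (hρI : ∀ a, ρ.hom a - τ.hom ((ev L hU hE).hom a) ∈ I) (b : B) (a : Γ(A, U)) :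
    (scale L hU hE τ I hI ρ hρI b).hom a =
      τ.hom ((ev L hU hE).hom a) + b * (ρ.hom a - τ.hom ((ev L hU hE).hom a)) := by
  show comb (ev L hU hE).hom τ.hom I hI ρ.hom ρ.hom hρI hρI b 0 a = _
  rw [comb_apply]; ring

theorem kap_scale {B : CommRingCat.{u}} (τ : CommRingCat.of K ⟶ B) (I : Ideal B)
    (hI : ∀ i ∈ I, ∀ j ∈ I, i * j = 0) (ρ : Γ(A, U) ⟶ B) (h : kap f hU ≫ ρ = τ)
    (hρI : ∀ a, ρ.hom a - τ.hom ((ev L hU hE).hom a) ∈ I) (b : B) :
    kap f hU ≫ scale L hU hE τ I hI ρ hρI b = τ :=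
  kap_comb L hU hE τ I hI ρ ρ h h hρI hρI b 0

theorem scale_sub_mem {B : CommRingCat.{u}} (τ : CommRingCat.of K ⟶ B) (I : Ideal B)
    (hI : ∀ i ∈ I, ∀ j ∈ I, i * j = 0) (ρ : Γ(A, U) ⟶ B)
    (hρI : ∀ a, ρ.hom a - τ.hom ((ev L hU hE).hom a) ∈ I) (b : B) (a : Γ(A, U)) :
    (scale L hU hE τ I hI ρ hρI b).hom a - τ.hom ((ev L hU hE).hom a) ∈ I :=
  comb_sub_mem (ev L hU hE).hom τ.hom I hI ρ.hom ρ.hom hρI hρI b 0 a

/-- **Power formula**. -/
theorem ofRho_pow {B : CommRingCat.{u}} (τ : CommRingCat.of K ⟶ B) (I : Ideal B)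
    (hI : ∀ i ∈ I, ∀ j ∈ I, i * j = 0) (ρ : Γ(A, U) ⟶ B) (h : kap f hU ≫ ρ = τ)
    (hρI : ∀ a, ρ.hom a - τ.hom ((ev L hU hE).hom a) ∈ I) (n : ℕ) :
    ofRho L hU τ ρ h ^ n =
      ofRho L hU τ (scale L hU hE τ I hI ρ hρI (n : B)) (kap_scale L hU hE τ I hI ρ h hρI _) := by
  induction n with
  | zero =>
    rw [pow_zero, one_eq_ofRho L hU hE τ]
    apply ofRho_congr
    ext a
    show τ.hom ((ev L hU hE).hom a) = (scale L hU hE τ I hI ρ hρI ((0 : ℕ) : B)).hom a
    rw [scale_apply]; simp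
  | succ n ih =>
    rw [pow_succ, ih, ofRho_mul_ofRho L hU hE τ I hI _ ρ _ h
      (scale_sub_mem L hU hE τ I hI ρ hρI _) hρI]
    apply ofRho_congr
    ext a
    show comb (ev L hU hE).hom τ.hom I hI (scale L hU hE τ I hI ρ hρI (n : B)).hom ρ.hom
        (scale_sub_mem L hU hE τ I hI ρ hρI _) hρI 1 1 a =
      (scale L hU hE τ I hI ρ hρI ((n + 1 : ℕ) : B)).hom a
    rw [comb_apply, scale_apply, scale_apply]
    push_cast
    ring

end infinitesimal

section kernel

variable (L : RelativeGroupLaw K f) {U : A.Opens} (hU : IsAffineOpen U)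
  (hE : Set.range (unitSec L) ⊆ U)

theorem sq_zero_of_ker {R S : CommRingCat.{u}} (φ : R ⟶ S)
    (hker : RingHom.ker φ.hom ^ 2 = ⊥) :
    ∀ i ∈ RingHom.ker φ.hom, ∀ j ∈ RingHom.ker φ.hom, i * j = 0 := by
  intro i hi j hj
  have : i * j ∈ RingHom.ker φ.hom ^ 2 := by
    rw [sq]; exact Ideal.mul_mem_mul hi hj
  rw [hker] at this
  exact this

/-- A point that restricts to the unit along a square-zero thickening is given by a ring
homomorphism out of `Γ(A, U)` congruent to evaluation at the unit section. -/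
theorem exists_rho_of_red_eq_one {R S : CommRingCat.{u}} (φ : R ⟶ S)
    (hφ : Function.Surjective φ) (hker : RingHom.ker φ.hom ^ 2 = ⊥)
    (τ : CommRingCat.of K ⟶ R) (x : Pt L (Spec.map τ))
    (hx : pullHom L (Spec.map τ) (Spec.map (τ ≫ φ)) (Spec.map φ) (Spec.map_comp _ _).symm x = 1) :
    ∃ (ρ : Γ(A, U) ⟶ R) (h : kap f hU ≫ ρ = τ), x = ofRho L hU τ ρ h ∧
      ∀ a, ρ.hom a - τ.hom ((ev L hU hE).hom a) ∈ RingHom.ker φ.hom := by
  have hx' : Spec.map φ ≫ x.hom = Spec.map (τ ≫ φ) ≫ unitSec L := by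
    have := congrArg Pt.hom hx
    rwa [pullHom_hom, one_hom] at this
  have hrange : Set.range x.hom ⊆ U := by
    rintro _ ⟨z, rfl⟩
    obtain ⟨y, rfl⟩ := SpecMap_surjective_of_sq_zero φ hφ hker z
    have : x.hom (Spec.map φ y) = unitSec L (Spec.map (τ ≫ φ) y) := by
      have := congrArg (fun g : Spec S ⟶ A => g y) hx'
      exact this
    rw [this]
    exact hE ⟨_, rfl⟩
  have hρ := SpecMap_rhoOf hU x.hom hrange
  have hk : kap f hU ≫ rhoOf hU x.hom hrange = τ := by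
    apply Spec.map_injective
    rw [Spec.map_comp, SpecMap_kap, ← Category.assoc, hρ, x.hom_comp]
  refine ⟨rhoOf hU x.hom hrange, hk, Pt.ext (by rw [ofRho_hom, hρ]), fun a => ?_⟩
  have hcomp : rhoOf hU x.hom hrange ≫ φ = (ev L hU hE ≫ τ) ≫ φ := by
    apply eq_of_SpecMap_fromSpec hU
    rw [Spec.map_comp, Category.assoc, hρ, hx']
    simp only [Spec.map_comp, Category.assoc, SpecMap_ev]
  have := congr($hcomp a)
  rw [RingHom.mem_ker, map_sub, sub_eq_zero]
  exact this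

theorem red_ofRho_eq_one {R S : CommRingCat.{u}} (φ : R ⟶ S)
    (τ : CommRingCat.of K ⟶ R) (ρ : Γ(A, U) ⟶ R) (h : kap f hU ≫ ρ = τ)
    (hρ : ∀ a, ρ.hom a - τ.hom ((ev L hU hE).hom a) ∈ RingHom.ker φ.hom) :
    pullHom L (Spec.map τ) (Spec.map (τ ≫ φ)) (Spec.map φ) (Spec.map_comp _ _).symm
      (ofRho L hU τ ρ h) = 1 := by
  rw [pullHom_ofRho, one_eq_ofRho L hU hE (τ ≫ φ)]
  apply ofRho_congr
  ext a
  have := hρ a
  rw [RingHom.mem_ker, map_sub, sub_eq_zero] at this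
  exact this

include hU hE in
/-- **The infinitesimal kernel is uniquely `n`-divisible** when `n` is invertible in `K`
(version with a chosen affine chart). -/
theorem infinitesimal_aux {R S : CommRingCat.{u}} (φ : R ⟶ S)
    (hφ : Function.Surjective φ) (hker : RingHom.ker φ.hom ^ 2 = ⊥)
    (τ : CommRingCat.of K ⟶ R) (n : ℕ) (hn : (n : K) ≠ 0) :
    (∀ x : Pt L (Spec.map τ),
      pullHom L (Spec.map τ) (Spec.map (τ ≫ φ)) (Spec.map φ) (Spec.map_comp _ _).symm x = 1 →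
        x ^ n = 1 → x = 1) ∧
    (∀ k : Pt L (Spec.map τ),
      pullHom L (Spec.map τ) (Spec.map (τ ≫ φ)) (Spec.map φ) (Spec.map_comp _ _).symm k = 1 →
        ∃ k' : Pt L (Spec.map τ),
          pullHom L (Spec.map τ) (Spec.map (τ ≫ φ)) (Spec.map φ) (Spec.map_comp _ _).symm k' = 1 ∧
            k' ^ n = k) := by
  have hI := sq_zero_of_ker φ hker
  have hunit : (n : R) * τ.hom ((n : K)⁻¹) = 1 := by
    have : τ.hom ((n : K) * (n : K)⁻¹) = 1 := by rw [mul_inv_cancel₀ hn, map_one]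
    rw [map_mul, map_natCast] at this
    exact this
  constructor
  · intro x hx hxn
    obtain ⟨ρ, h, rfl, hρ⟩ := exists_rho_of_red_eq_one L hU hE φ hφ hker τ x hx
    rw [ofRho_pow L hU hE τ _ hI ρ h hρ n, one_eq_ofRho L hU hE τ] at hxn
    have hs := ofRho_injective L hU τ _ _ hxn
    rw [one_eq_ofRho L hU hE τ]
    apply ofRho_congr
    ext a
    have h1 := congr($hs a)
    have h2 : (scale L hU hE τ _ hI ρ hρ (n : R)).hom a =
        τ.hom ((ev L hU hE).hom a) + (n : R) * (ρ.hom a - τ.hom ((ev L hU hE).hom a)) :=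
      scale_apply L hU hE τ _ hI ρ hρ _ a
    have h3 : (n : R) * (ρ.hom a - τ.hom ((ev L hU hE).hom a)) = 0 := by
      have h4 : (scale L hU hE τ _ hI ρ hρ (n : R)).hom a = τ.hom ((ev L hU hE).hom a) := h1
      rw [h2] at h4
      linear_combination h4
    show ρ.hom a = τ.hom ((ev L hU hE).hom a)
    have h5 : ρ.hom a - τ.hom ((ev L hU hE).hom a) =
        τ.hom ((n : K)⁻¹) * ((n : R) * (ρ.hom a - τ.hom ((ev L hU hE).hom a))) := by
      linear_combination (-(ρ.hom a - τ.hom ((ev L hU hE).hom a))) * hunit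
    rw [h3, mul_zero, sub_eq_zero] at h5
    exact h5
  · intro k hk
    obtain ⟨ρ, h, rfl, hρ⟩ := exists_rho_of_red_eq_one L hU hE φ hφ hker τ k hk
    refine ⟨ofRho L hU τ (scale L hU hE τ _ hI ρ hρ (τ.hom ((n : K)⁻¹)))
      (kap_scale L hU hE τ _ hI ρ h hρ _), ?_, ?_⟩
    · exact red_ofRho_eq_one L hU hE φ τ _ _ (scale_sub_mem L hU hE τ _ hI ρ hρ _)
    · rw [ofRho_pow L hU hE τ _ hI _ _ (scale_sub_mem L hU hE τ _ hI ρ hρ _) n]
      apply ofRho_congr
      ext a
      show (scale L hU hE τ _ hI _ (scale_sub_mem L hU hE τ _ hI ρ hρ _) (n : R)).hom a = ρ.hom a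
      rw [scale_apply, scale_apply]
      linear_combination (ρ.hom a - τ.hom ((ev L hU hE).hom a)) * hunit

/-- **The infinitesimal kernel is uniquely `n`-divisible** when `n` is invertible in `K`:
for a square-zero thickening `Spec S ⟶ Spec R` over `K`, the points of `A` over `Spec R` that
restrict to the unit over `Spec S` have no `n`-torsion and are `n`-divisible. -/
theorem infinitesimal {R S : CommRingCat.{u}} (φ : R ⟶ S)
    (hφ : Function.Surjective φ) (hker : RingHom.ker φ.hom ^ 2 = ⊥)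
    (τ : CommRingCat.of K ⟶ R) (n : ℕ) (hn : (n : K) ≠ 0) :
    (∀ x : Pt L (Spec.map τ),
      pullHom L (Spec.map τ) (Spec.map (τ ≫ φ)) (Spec.map φ) (Spec.map_comp _ _).symm x = 1 →
        x ^ n = 1 → x = 1) ∧
    (∀ k : Pt L (Spec.map τ),
      pullHom L (Spec.map τ) (Spec.map (τ ≫ φ)) (Spec.map φ) (Spec.map_comp _ _).symm k = 1 →
        ∃ k' : Pt L (Spec.map τ),
          pullHom L (Spec.map τ) (Spec.map (τ ≫ φ)) (Spec.map φ) (Spec.map_comp _ _).symm k' = 1 ∧
            k' ^ n = k) := by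
  let s : Spec (CommRingCat.of K) := (default : PrimeSpectrum K)
  obtain ⟨_, ⟨U, hU, rfl⟩, hsU, -⟩ :=
    A.isBasis_affineOpens.exists_subset_of_mem_open (Set.mem_univ (unitSec L s)) isOpen_univ
  have hE : Set.range (unitSec L) ⊆ U := by
    rintro _ ⟨s', rfl⟩
    have : s' = s := Subsingleton.elim (α := PrimeSpectrum K) s' s
    rw [this]
    exact hsU
  exact infinitesimal_aux L hU hE φ hφ hker τ n hn

end kernel

section lifting

variable (L : RelativeGroupLaw K f)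

theorem pow_hom_eq {T : Scheme.{u}} {t : T ⟶ Spec (CommRingCat.of K)} (n : ℕ) (x : Pt L t) :
    (x ^ n).hom = x.hom ≫ L.schemeNsmul n := (comp_schemeNsmul L t n x).symm

theorem commute_of_isCommutative (hc : L.IsCommutative) {T : Scheme.{u}}
    {t : T ⟶ Spec (CommRingCat.of K)} (x y : Pt L t) : Commute x y :=
  hc t x y

/-- **Uniqueness of infinitesimal lifts** along `[n]`. -/
theorem schemeNsmul_hom_ext (hc : L.IsCommutative) (n : ℕ) (hn : (n : K) ≠ 0)
    {R S : CommRingCat.{u}} (φ : R ⟶ S) (hφ : Function.Surjective φ)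
    (hker : RingHom.ker φ.hom ^ 2 = ⊥) (g₁ g₂ : Spec R ⟶ A)
    (h1 : Spec.map φ ≫ g₁ = Spec.map φ ≫ g₂)
    (h2 : g₁ ≫ L.schemeNsmul n = g₂ ≫ L.schemeNsmul n) : g₁ = g₂ := by
  have ht : g₁ ≫ f = g₂ ≫ f := by
    have := congrArg (· ≫ f) h2
    simpa only [Category.assoc, RelativeGroupLaw.schemeNsmul_over] using this
  obtain ⟨τ, hτ⟩ : ∃ τ : CommRingCat.of K ⟶ R, Spec.map τ = g₁ ≫ f :=
    ⟨Spec.preimage _, Spec.map_preimage _⟩
  let x₁ : Pt L (Spec.map τ) := Pt.mk L _ g₁ hτ.symm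
  let x₂ : Pt L (Spec.map τ) := Pt.mk L _ g₂ (ht ▸ hτ.symm)
  have hpow : x₁ ^ n = x₂ ^ n := Pt.ext (by rw [pow_hom_eq, pow_hom_eq]; exact h2)
  have hred : pullHom L (Spec.map τ) (Spec.map (τ ≫ φ)) (Spec.map φ) (Spec.map_comp _ _).symm x₁ =
      pullHom L (Spec.map τ) (Spec.map (τ ≫ φ)) (Spec.map φ) (Spec.map_comp _ _).symm x₂ :=
    Pt.ext h1
  have key := (infinitesimal L φ hφ hker τ n hn).1 (x₁ * x₂⁻¹)
    (by rw [map_mul, map_inv, hred, mul_inv_cancel])
    (by rw [(commute_of_isCommutative L hc x₁ x₂⁻¹).mul_pow, inv_pow, hpow, mul_inv_cancel])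
  have : x₁ = x₂ := mul_inv_eq_one.mp key
  exact congrArg Pt.hom this

/-- **Existence of infinitesimal lifts** along `[n]`, for points landing in an affine open. -/
theorem schemeNsmul_exists_lift [Smooth f] (hc : L.IsCommutative) (n : ℕ) (hn : (n : K) ≠ 0)
    {R S : CommRingCat.{u}} (φ : R ⟶ S) (hφ : Function.Surjective φ)
    (hker : RingHom.ker φ.hom ^ 2 = ⊥) (g : Spec R ⟶ A) (h : Spec S ⟶ A)
    (hgh : h ≫ L.schemeNsmul n = Spec.map φ ≫ g)
    {V : A.Opens} (hV : IsAffineOpen V) (hrange : Set.range h ⊆ V) :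
    ∃ g' : Spec R ⟶ A, Spec.map φ ≫ g' = h ∧ g' ≫ L.schemeNsmul n = g := by
  obtain ⟨τ, hτ⟩ : ∃ τ : CommRingCat.of K ⟶ R, Spec.map τ = g ≫ f :=
    ⟨Spec.preimage _, Spec.map_preimage _⟩
  have hhf : h ≫ f = Spec.map (τ ≫ φ) := by
    rw [← RelativeGroupLaw.schemeNsmul_over L n, ← Category.assoc, hgh, Category.assoc, ← hτ,
      Spec.map_comp]
  let y : Pt L (Spec.map τ) := Pt.mk L _ g hτ.symm
  let xb : Pt L (Spec.map (τ ≫ φ)) := Pt.mk L _ h hhf
  have hxb : xb ^ n =
      pullHom L (Spec.map τ) (Spec.map (τ ≫ φ)) (Spec.map φ) (Spec.map_comp _ _).symm y :=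
    Pt.ext (by rw [pow_hom_eq]; exact hgh)
  -- lift `h` to a point over `Spec R` using formal smoothness of `Γ(A, V)` over `K`
  have hη := SpecMap_rhoOf hV h hrange
  have hκη : kap f hV ≫ rhoOf hV h hrange = τ ≫ φ := by
    apply Spec.map_injective
    rw [Spec.map_comp, SpecMap_kap, ← Category.assoc, hη, hhf]
  have hsm : (kap f hV).hom.Smooth := by
    have : Smooth (Spec.map (kap f hV)) := by rw [SpecMap_kap]; infer_instance
    exact (HasRingHomProperty.Spec_iff (P := @Smooth)).mp this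
  let algV : Algebra K Γ(A, V) := (kap f hV).hom.toAlgebra
  let algR : Algebra K R := τ.hom.toAlgebra
  let algS : Algebra K S := (τ ≫ φ).hom.toAlgebra
  have hfs : Algebra.FormallySmooth K Γ(A, V) := hsm.formallySmooth
  let φ' : R →ₐ[K] S := ⟨φ.hom, fun c => rfl⟩
  let η' : Γ(A, V) →ₐ[K] S := ⟨(rhoOf hV h hrange).hom, fun c => congr($hκη c)⟩
  have hnil : IsNilpotent (RingHom.ker φ') := ⟨2, hker⟩
  let lft : Γ(A, V) →ₐ[K] R := Algebra.FormallySmooth.liftOfSurjective η' φ' hφ hnil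
  have hlft : ∀ a, φ.hom (lft a) = (rhoOf hV h hrange).hom a :=
    Algebra.FormallySmooth.liftOfSurjective_apply η' φ' hφ hnil
  let ηt : Γ(A, V) ⟶ R := CommRingCat.ofHom lft.toRingHom
  have hκt : kap f hV ≫ ηt = τ := by
    ext c
    exact lft.commutes c
  have hηt : ηt ≫ φ = rhoOf hV h hrange := by
    ext a
    exact hlft a
  let x₀ : Pt L (Spec.map τ) := Pt.mk L _ (Spec.map ηt ≫ hV.fromSpec)
    (by rw [Category.assoc, ← SpecMap_kap, ← Spec.map_comp, hκt])
  have hx₀ : pullHom L (Spec.map τ) (Spec.map (τ ≫ φ)) (Spec.map φ) (Spec.map_comp _ _).symm x₀ =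
      xb := by
    apply Pt.ext
    show Spec.map φ ≫ Spec.map ηt ≫ hV.fromSpec = h
    rw [← Category.assoc, ← Spec.map_comp, hηt, hη]
  -- correct the lift by an element of the infinitesimal kernel
  obtain ⟨k', hk', hk'n⟩ := (infinitesimal L φ hφ hker τ n hn).2 (y * (x₀ ^ n)⁻¹)
    (by rw [map_mul, map_inv, map_pow, hx₀, hxb, mul_inv_cancel])
  refine ⟨(x₀ * k').hom, ?_, ?_⟩
  · have : pullHom L (Spec.map τ) (Spec.map (τ ≫ φ)) (Spec.map φ) (Spec.map_comp _ _).symm
        (x₀ * k') = xb := by rw [map_mul, hk', mul_one, hx₀]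
    exact congrArg Pt.hom this
  · rw [← pow_hom_eq, (commute_of_isCommutative L hc x₀ k').mul_pow, hk'n,
      (commute_of_isCommutative L hc (x₀ ^ n) (y * (x₀ ^ n)⁻¹)).eq, inv_mul_cancel_right]
    rfl

end lifting

section main

variable (L : RelativeGroupLaw K f)

/-- Multiplication by `n` is formally unramified when `n` is invertible in `K`. -/
theorem formallyUnramified_schemeNsmul (hc : L.IsCommutative) (n : ℕ) (hn : (n : K) ≠ 0) :
    FormallyUnramified (L.schemeNsmul n) :=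
  FormallyUnramified.of_hom_ext _ fun _ _ φ hφ hker g₁ g₂ h1 h2 =>
    schemeNsmul_hom_ext L hc n hn φ hφ hker g₁ g₂ h1 h2

theorem kap_appLE (n : ℕ) {Uo V : A.Opens} (hUo : IsAffineOpen Uo) (hV : IsAffineOpen V)
    (e : V ≤ (L.schemeNsmul n) ⁻¹ᵁ Uo) :
    kap f hUo ≫ (L.schemeNsmul n).appLE Uo V e = kap f hV := by
  apply Spec.map_injective
  rw [Spec.map_comp, SpecMap_kap, SpecMap_kap, ← Category.assoc,
    hUo.SpecMap_appLE_fromSpec (L.schemeNsmul n) hV e, Category.assoc,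
    RelativeGroupLaw.schemeNsmul_over]

/-- Ring-level formal smoothness of `[n]` on affine opens. -/
theorem formallySmooth_appLE [Smooth f] (hc : L.IsCommutative) (n : ℕ) (hn : (n : K) ≠ 0)
    {Uo V : A.Opens} (hUo : IsAffineOpen Uo) (hV : IsAffineOpen V)
    (e : V ≤ (L.schemeNsmul n) ⁻¹ᵁ Uo) :
    ((L.schemeNsmul n).appLE Uo V e).hom.FormallySmooth := by
  let alg : Algebra Γ(A, Uo) Γ(A, V) := ((L.schemeNsmul n).appLE Uo V e).hom.toAlgebra
  show Algebra.FormallySmooth Γ(A, Uo) Γ(A, V)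
  refine Algebra.FormallySmooth.of_comp_surjective fun B _ _ I hI g₀ => ?_
  let φ : CommRingCat.of B ⟶ CommRingCat.of (B ⧸ I) := CommRingCat.ofHom (Ideal.Quotient.mk I)
  have hφ : Function.Surjective φ := Ideal.Quotient.mk_surjective
  have hker : RingHom.ker φ.hom ^ 2 = ⊥ := by
    show RingHom.ker (Ideal.Quotient.mk I) ^ 2 = ⊥
    rw [Ideal.mk_ker, hI]
  let g : Spec (CommRingCat.of B) ⟶ A :=
    Spec.map (CommRingCat.ofHom (algebraMap Γ(A, Uo) B)) ≫ hUo.fromSpec
  let h : Spec (CommRingCat.of (B ⧸ I)) ⟶ A :=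
    Spec.map (CommRingCat.ofHom g₀.toRingHom) ≫ hV.fromSpec
  have hg₀ : (L.schemeNsmul n).appLE Uo V e ≫ CommRingCat.ofHom g₀.toRingHom =
      CommRingCat.ofHom (algebraMap Γ(A, Uo) B) ≫ φ :=
    CommRingCat.hom_ext g₀.comp_algebraMap
  have hgh : h ≫ L.schemeNsmul n = Spec.map φ ≫ g := by
    show (Spec.map (CommRingCat.ofHom g₀.toRingHom) ≫ hV.fromSpec) ≫ L.schemeNsmul n =
      Spec.map φ ≫ Spec.map (CommRingCat.ofHom (algebraMap Γ(A, Uo) B)) ≫ hUo.fromSpec
    rw [Category.assoc, ← hUo.SpecMap_appLE_fromSpec (L.schemeNsmul n) hV e, ← Category.assoc,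
      ← Spec.map_comp, hg₀, Spec.map_comp, Category.assoc]
  obtain ⟨g', hg'1, hg'2⟩ := schemeNsmul_exists_lift L hc n hn φ hφ hker g h hgh hV
    (range_SpecMap_fromSpec hV _)
  have hrange : Set.range g' ⊆ V := by
    rintro _ ⟨z, rfl⟩
    obtain ⟨y, rfl⟩ := SpecMap_surjective_of_sq_zero φ hφ hker z
    have : g' (Spec.map φ y) = h y := congrArg (fun q : Spec (CommRingCat.of (B ⧸ I)) ⟶ A => q y) hg'1
    rw [this]
    exact range_SpecMap_fromSpec hV _ ⟨y, rfl⟩
  have hψ := SpecMap_rhoOf hV g' hrange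
  have hψ1 : (L.schemeNsmul n).appLE Uo V e ≫ rhoOf hV g' hrange =
      CommRingCat.ofHom (algebraMap Γ(A, Uo) B) := by
    apply eq_of_SpecMap_fromSpec hUo
    rw [Spec.map_comp, Category.assoc, hUo.SpecMap_appLE_fromSpec (L.schemeNsmul n) hV e,
      ← Category.assoc, hψ, hg'2]
  have hψ2 : rhoOf hV g' hrange ≫ φ = CommRingCat.ofHom g₀.toRingHom := by
    apply eq_of_SpecMap_fromSpec hV
    rw [Spec.map_comp, Category.assoc, hψ, hg'1]
  refine ⟨⟨(rhoOf hV g' hrange).hom, fun r => congr($hψ1 r)⟩, ?_⟩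
  ext a
  exact congr($hψ2 a)

/-- Ring-level finite presentation of `[n]` on affine opens. -/
theorem finitePresentation_appLE [Smooth f] (n : ℕ)
    {Uo V : A.Opens} (hUo : IsAffineOpen Uo) (hV : IsAffineOpen V)
    (e : V ≤ (L.schemeNsmul n) ⁻¹ᵁ Uo) :
    ((L.schemeNsmul n).appLE Uo V e).hom.FinitePresentation := by
  have hsmV : (kap f hV).hom.Smooth := by
    have : Smooth (Spec.map (kap f hV)) := by rw [SpecMap_kap]; infer_instance
    exact (HasRingHomProperty.Spec_iff (P := @Smooth)).mp this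
  have hsmU : (kap f hUo).hom.Smooth := by
    have : Smooth (Spec.map (kap f hUo)) := by rw [SpecMap_kap]; infer_instance
    exact (HasRingHomProperty.Spec_iff (P := @Smooth)).mp this
  let alg : Algebra Γ(A, Uo) Γ(A, V) := ((L.schemeNsmul n).appLE Uo V e).hom.toAlgebra
  let algU : Algebra K Γ(A, Uo) := (kap f hUo).hom.toAlgebra
  let algV : Algebra K Γ(A, V) := (kap f hV).hom.toAlgebra
  have : IsScalarTower K Γ(A, Uo) Γ(A, V) := IsScalarTower.of_algebraMap_eq' <| by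
    have := kap_appLE L n hUo hV e
    exact congrArg CommRingCat.Hom.hom this.symm
  have h1 : Algebra.FinitePresentation K Γ(A, V) := hsmV.finitePresentation
  have h2 : Algebra.FinitePresentation K Γ(A, Uo) := hsmU.finitePresentation
  show Algebra.FinitePresentation Γ(A, Uo) Γ(A, V)
  exact Algebra.FinitePresentation.of_restrict_scalars_finitePresentation K _ _

/-- Multiplication by `n` is smooth when `n` is invertible in `K`. -/
theorem smooth_schemeNsmul [Smooth f] (hc : L.IsCommutative) (n : ℕ) (hn : (n : K) ≠ 0) :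
    Smooth (L.schemeNsmul n) :=
  ⟨fun hUo _ hV e =>
    letI := ((L.schemeNsmul n).appLE _ _ e).hom.toAlgebra
    show Algebra.Smooth _ _ from
      ⟨formallySmooth_appLE L hc n hn hUo hV e, finitePresentation_appLE L n hUo hV e⟩⟩

/-- **Multiplication by `n` on a smooth commutative group scheme over a field `K` is étale
when `n` is invertible in `K`.** -/
theorem etale_schemeNsmul [Smooth f] (hc : L.IsCommutative) (n : ℕ) (hn : (n : K) ≠ 0) :
    Etale (L.schemeNsmul n) := by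
  have h1 := formallyUnramified_schemeNsmul L hc n hn
  have h2 := smooth_schemeNsmul L hc n hn
  exact Etale.of_formallyUnramified_of_flat _

end main

end Fermat.Agent.S26.H9044
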